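import Fermat.Agent.S41.Ih.Key

/-!
# S41 / Ih : Ihara's lemma for eigenvectors (board #3136)

`φ₁, φ₂ : Γ₀(N) → 𝔽_p` parabolic characters, `T_ℓ φ_i = a ℓ • φ_i` (`ℓ ∉ S`),
`φ₁(g) + φ₂(δ g δ⁻¹) = 0` on `Γ₀(N r)`, `δ = diag(r,1)`.  If for all `m, o` there is a prime `ℓ ∉ S`, `ℓ ≡ 1 mod m`,
`p ∣ ord(r^(2o) mod ℓ)`, `a ℓ ≢ 2 mod p`, then `φ₁ = φ₂ = 0`.
-/

set_option autoImplicit false

open CongruenceSubgroup Matrix.SpecialLinearGroup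
open scoped MatrixGroups

namespace Fermat.Agent.S41.Ih

open Fermat.Agent.ES.Coh Fermat.Agent.S16.Shimura ModularCurve ModularCurve.Period

variable {N : ℕ} {A : Type} [AddCommGroup A]

/-- `g₁ = g` as matrices. -/
def IsIncl {r : ℕ} (g : Gamma0 (N * r)) (g₁ : Gamma0 N) : Prop :=
  (g₁ : SL(2, ℤ)) = (g : SL(2, ℤ))

/-- `g₂ = δ g δ⁻¹`, `δ = diag(r,1)`. -/
def IsConj {r : ℕ} (g : Gamma0 (N * r)) (g₂ : Gamma0 N) : Prop :=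
  (g₂ : SL(2, ℤ)) 0 0 = (g : SL(2, ℤ)) 0 0 ∧ (g₂ : SL(2, ℤ)) 0 1 = (r : ℤ) * (g : SL(2, ℤ)) 0 1 ∧
    (r : ℤ) * (g₂ : SL(2, ℤ)) 1 0 = (g : SL(2, ℤ)) 1 0 ∧ (g₂ : SL(2, ℤ)) 1 1 = (g : SL(2, ℤ)) 1 1

/-- `φ₁(g) + φ₂(δ g δ⁻¹) = 0` on `Γ₀(N r)`. -/
def Rel (r : ℕ) (φ₁ φ₂ : Additive (Gamma0 N) →+ A) : Prop :=
  ∀ (g : Gamma0 (N * r)) (g₁ g₂ : Gamma0 N), IsIncl g g₁ → IsConj g g₂ →
    φ₁ (Additive.ofMul g₁) + φ₂ (Additive.ofMul g₂) = 0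

theorem Conj_dvd {r : ℕ} (g : Gamma0 (N * r)) : ((N * r : ℕ) : ℤ) ∣ (g : SL(2, ℤ)) 1 0 := by
  have h := g.2
  rw [Gamma0_mem] at h
  exact (ZMod.intCast_zmod_eq_zero_iff_dvd _ _).1 h

/-- TASK `S41/Ih-Conj`. `⟨g, _⟩` (`Gamma0_mem`, `ZMod.intCast_zmod_eq_zero_iff_dvd`, `N ∣ N r ∣ g 1 0`;
or `S58.Gamma0_le_of_dvd'`-like argument). -/
theorem exists_incl {r : ℕ} (g : Gamma0 (N * r)) : ∃ g₁ : Gamma0 N, IsIncl g g₁ := by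
  refine ⟨⟨(g : SL(2, ℤ)), ?_⟩, rfl⟩
  rw [Gamma0_mem]
  refine (ZMod.intCast_zmod_eq_zero_iff_dvd _ _).2 (dvd_trans ?_ (Conj_dvd g))
  exact_mod_cast Dvd.intro r rfl

/-- TASK `S41/Ih-Conj` (same task).  `g 1 0 = N r c`; take `!![g 0 0, r * g 0 1; N * c, g 1 1]`, `det = 1`. -/
theorem exists_conj {r : ℕ} (g : Gamma0 (N * r)) : ∃ g₂ : Gamma0 N, IsConj g g₂ := by
  obtain ⟨c, hc⟩ := Conj_dvd g
  have hdet := Matrix.SpecialLinearGroup.det_coe (g : SL(2, ℤ))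
  rw [Matrix.det_fin_two] at hdet
  refine ⟨⟨⟨!![(g : SL(2, ℤ)) 0 0, (r : ℤ) * (g : SL(2, ℤ)) 0 1; (N : ℤ) * c, (g : SL(2, ℤ)) 1 1], ?_⟩,
    ?_⟩, rfl, rfl, ?_, rfl⟩
  · rw [Matrix.det_fin_two_of]
    rw [hc] at hdet
    push_cast at hdet
    linear_combination hdet
  · refine Gamma0_mem.2 ((ZMod.intCast_zmod_eq_zero_iff_dvd _ _).2 ?_)
    exact Dvd.intro c rfl
  · change (r : ℤ) * ((N : ℤ) * c) = _
    rw [hc]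
    push_cast
    ring

/-- entries of a conjugate in `SL(2, ℤ)`. -/
theorem IhSwap_conj (X Y : SL(2, ℤ)) :
    (X * Y * X⁻¹) 0 0 = (X 0 0 * Y 0 0 + X 0 1 * Y 1 0) * X 1 1 - (X 0 0 * Y 0 1 + X 0 1 * Y 1 1) * X 1 0 ∧
    (X * Y * X⁻¹) 0 1 = -(X 0 0 * Y 0 0 + X 0 1 * Y 1 0) * X 0 1 + (X 0 0 * Y 0 1 + X 0 1 * Y 1 1) * X 0 0 ∧
    (X * Y * X⁻¹) 1 0 = (X 1 0 * Y 0 0 + X 1 1 * Y 1 0) * X 1 1 - (X 1 0 * Y 0 1 + X 1 1 * Y 1 1) * X 1 0 ∧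
    (X * Y * X⁻¹) 1 1 = -(X 1 0 * Y 0 0 + X 1 1 * Y 1 0) * X 0 1 + (X 1 0 * Y 0 1 + X 1 1 * Y 1 1) * X 0 0 := by
  refine ⟨?_, ?_, ?_, ?_⟩ <;>
  · simp only [Matrix.SpecialLinearGroup.coe_mul, Matrix.SpecialLinearGroup.coe_inv,
      Matrix.adjugate_fin_two, Matrix.mul_apply, Fin.sum_univ_two, Matrix.of_apply,
      Matrix.cons_val_zero, Matrix.cons_val_one, Matrix.cons_val', Matrix.cons_val_fin_one]
    ring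

theorem IhSwap_map_conj (φ : Additive (Gamma0 N) →+ A) (γ x : Gamma0 N) :
    φ (Additive.ofMul (γ * x * γ⁻¹)) = φ (Additive.ofMul x) := by
  rw [ofMul_mul, ofMul_mul, ofMul_inv, map_add, map_add, map_neg]
  abel

/-- TASK `S41/Ih-Swap`.  **the swap lemma** (board #3136 (a)).  Bezout: `r w - N y = 1` (`Nat.Coprime`, `Int.isCoprime_iff_gcd_eq_one`).
`γ₀ := !![1, y; N, r w]`, `γ₂ := !![r, y; N, w] ∈ Γ₀(N)`.  Given `g, g₁, g₂` (`IsIncl g g₁`, `IsConj g g₂`):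
the matrix `γ₀ g₂ γ₀⁻¹` lies in `Γ₀(N r)` (lower left entry `= r N (a w + r w² c'' - N b - w d)` where `g = (a,b;N r c'',d)`): call it `g'`;
`g'₁ := γ₀ * g₂ * γ₀⁻¹`, `g'₂ := γ₂ * g₁ * γ₂⁻¹ : Γ₀(N)` satisfy `IsIncl g' g'₁`, `IsConj g' g'₂`
(because `δ γ₀ δ = r γ₂`; check the 4 entries: `Matrix.SpecialLinearGroup.coe_inv`, `Matrix.adjugate_fin_two`, `Matrix.mul_apply`, `Fin.sum_univ_two`, then
`linear_combination` with the Bezout relation / `det g = 1`).  `h g' g'₁ g'₂` and `φ (γ * x * γ⁻¹) = φ x`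
(`ofMul_mul`, `ofMul_inv`, `map_add`, `map_neg`, `abel`). -/
theorem Rel.swap {r : ℕ} (hrN : Nat.Coprime r N) {φ₁ φ₂ : Additive (Gamma0 N) →+ A}
    (h : Rel r φ₁ φ₂) : Rel r φ₂ φ₁ := by
  intro g g₁ g₂ hI hC
  obtain ⟨hC00, hC01, hC10, hC11⟩ := hC
  -- Bezout
  have hcop : IsCoprime (r : ℤ) (N : ℤ) := Nat.isCoprime_iff_coprime.2 hrN
  obtain ⟨w, y', hwy⟩ := hcop
  set y : ℤ := -y' with hy
  have hbez : (r : ℤ) * w - (N : ℤ) * y = 1 := by rw [hy]; linear_combination hwy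
  -- `c = N r c''`
  have hgmem : (((g : SL(2, ℤ)) 1 0 : ℤ) : ZMod (N * r)) = 0 := Gamma0_mem.1 g.2
  rw [ZMod.intCast_zmod_eq_zero_iff_dvd] at hgmem
  obtain ⟨c'', hc''⟩ := hgmem
  push_cast at hc''
  let X₀ : SL(2, ℤ) := ⟨!![1, y; (N : ℤ), (r : ℤ) * w], by
    rw [Matrix.det_fin_two_of]; linear_combination hbez⟩
  let X₂ : SL(2, ℤ) := ⟨!![(r : ℤ), y; (N : ℤ), w], by
    rw [Matrix.det_fin_two_of]; linear_combination hbez⟩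
  have hX₀ : X₀ ∈ Gamma0 N := by
    rw [Gamma0_mem]
    show (((N : ℤ) : ℤ) : ZMod N) = 0
    simp
  have hX₂ : X₂ ∈ Gamma0 N := by
    rw [Gamma0_mem]
    show (((N : ℤ) : ℤ) : ZMod N) = 0
    simp
  let γ₀ : Gamma0 N := ⟨X₀, hX₀⟩
  let γ₂ : Gamma0 N := ⟨X₂, hX₂⟩
  have e₀ := IhSwap_conj X₀ (g₂ : SL(2, ℤ))
  have e₂ := IhSwap_conj X₂ (g₁ : SL(2, ℤ))
  have x00 : X₀ 0 0 = 1 := rfl
  have x01 : X₀ 0 1 = y := rfl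
  have x10 : X₀ 1 0 = (N : ℤ) := rfl
  have x11 : X₀ 1 1 = (r : ℤ) * w := rfl
  have z00 : X₂ 0 0 = (r : ℤ) := rfl
  have z01 : X₂ 0 1 = y := rfl
  have z10 : X₂ 1 0 = (N : ℤ) := rfl
  have z11 : X₂ 1 1 = w := rfl
  rw [x00, x01, x10, x11, hC00, hC01, hC11] at e₀
  rw [z00, z01, z10, z11, hI] at e₂
  obtain ⟨a00, a01, a10, a11⟩ := e₀
  obtain ⟨b00, b01, b10, b11⟩ := e₂
  have hmem : (X₀ * (g₂ : SL(2, ℤ)) * X₀⁻¹) ∈ Gamma0 (N * r) := by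
    rw [Gamma0_mem, ZMod.intCast_zmod_eq_zero_iff_dvd, a10]
    push_cast
    refine ⟨(g : SL(2, ℤ)) 0 0 * w + (r : ℤ) * w ^ 2 * c'' - (N : ℤ) * (g : SL(2, ℤ)) 0 1
      - w * (g : SL(2, ℤ)) 1 1, ?_⟩
    linear_combination ((r : ℤ) * w ^ 2) * hC10 + ((r : ℤ) * w ^ 2) * hc''
  have hI' : (g₁ : SL(2, ℤ)) = (g : SL(2, ℤ)) := hI
  have key := h ⟨X₀ * (g₂ : SL(2, ℤ)) * X₀⁻¹, hmem⟩ (γ₀ * g₂ * γ₀⁻¹) (γ₂ * g₁ * γ₂⁻¹) rfl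
    ⟨?_, ?_, ?_, ?_⟩
  · rw [IhSwap_map_conj, IhSwap_map_conj] at key
    rw [add_comm]
    exact key
  · show (X₂ * (g₁ : SL(2, ℤ)) * X₂⁻¹) 0 0 = (X₀ * (g₂ : SL(2, ℤ)) * X₀⁻¹) 0 0
    rw [hI', a00, b00, ← hC10]
    ring
  · show (X₂ * (g₁ : SL(2, ℤ)) * X₂⁻¹) 0 1 = (r : ℤ) * (X₀ * (g₂ : SL(2, ℤ)) * X₀⁻¹) 0 1
    rw [hI', a01, b01, ← hC10]
    ring
  · show (r : ℤ) * (X₂ * (g₁ : SL(2, ℤ)) * X₂⁻¹) 1 0 = (X₀ * (g₂ : SL(2, ℤ)) * X₀⁻¹) 1 0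
    rw [hI', a10, b10, ← hC10]
    ring
  · show (X₂ * (g₁ : SL(2, ℤ)) * X₂⁻¹) 1 1 = (X₀ * (g₂ : SL(2, ℤ)) * X₀⁻¹) 1 1
    rw [hI', a11, b11, ← hC10]
    ring

/-- TASK `S41/Ih-Rel`.  (board #3136 (c))  `exists_rep (N := N * r) x hx` gives `g : Γ₀(N r)` with second column `(x.num, x.den)`;
`exists_incl`, `exists_conj`; `Rep g₁ x`, `Rep g₂ (r x)`; `Jq_eq`. -/
theorem Rel.Jq_add {r : ℕ} {φ₁ φ₂ : Additive (Gamma0 N) →+ A}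
    (h₁ : IsParabolicHom (Gamma0 N) φ₁) (h₂ : IsParabolicHom (Gamma0 N) φ₂) (h : Rel r φ₁ φ₂)
    (x : ℚ) (hx : Nat.Coprime x.den (N * r)) : Jq φ₁ x + Jq φ₂ ((r : ℚ) * x) = 0 := by
  obtain ⟨g, -, hg0, hg1⟩ := exists_rep (N := N * r) x hx
  obtain ⟨g₁, hg₁⟩ := exists_incl g
  obtain ⟨g₂, hg₂⟩ := exists_conj g
  have hden : (x.den : ℤ) ≠ 0 := Int.natCast_ne_zero.mpr x.den_nz
  have hxe : ((x.num : ℤ) : ℚ) = x * ((x.den : ℤ) : ℚ) := by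
    rw [Int.cast_natCast]
    exact (Rat.mul_den_eq_num x).symm
  have R₁ : Rep g₁ x := by
    unfold IsIncl at hg₁
    refine ⟨?_, ?_⟩
    · rw [hg₁, hg1]
      exact hden
    · rw [hg₁, hg0, hg1]
      exact hxe
  have R₂ : Rep g₂ ((r : ℚ) * x) := by
    obtain ⟨-, h01, -, h11⟩ := hg₂
    refine ⟨?_, ?_⟩
    · rw [h11, hg1]
      exact hden
    · rw [h01, h11, hg0, hg1]
      push_cast
      rw [Int.cast_natCast] at hxe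
      rw [hxe]
      ring
  rw [Jq_eq h₁ R₁, Jq_eq h₂ R₂]
  exact h g g₁ g₂ hg₁ hg₂

/-- `J₁(r² y) = J₁(y)`. -/
theorem Rel.inv {r : ℕ} {φ₁ φ₂ : Additive (Gamma0 N) →+ A}
    (h₁ : IsParabolicHom (Gamma0 N) φ₁) (h₂ : IsParabolicHom (Gamma0 N) φ₂) (h : Rel r φ₁ φ₂)
    (h' : Rel r φ₂ φ₁) : Inv r φ₁ := by
  intro y hy
  have e1 := h.Jq_add h₁ h₂ y hy
  have hy' : Nat.Coprime ((r : ℚ) * y).den (N * r) :=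
    Nat.Coprime.coprime_dvd_left (den_natCast_mul_dvd r y) hy
  have e2 := h'.Jq_add h₂ h₁ _ hy'
  have e3 : (r : ℚ) ^ 2 * y = (r : ℚ) * ((r : ℚ) * y) := by ring
  rw [e3]
  have e4 : Jq φ₁ ((r : ℚ) * ((r : ℚ) * y)) = - Jq φ₂ ((r : ℚ) * y) := by
    rw [eq_neg_iff_add_eq_zero, add_comm]
    exact e2
  rw [e4, neg_eq_iff_add_eq_zero, add_comm]
  exact e1

/-- (helper, `S41/Ih-Zero`) the case `r ∤ d`. -/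
theorem IhZero_aux {r : ℕ} (hr : r.Prime) {φ : Additive (Gamma0 N) →+ A}
    (hφ : IsParabolicHom (Gamma0 N) φ)
    (h : ∀ x : ℚ, Nat.Coprime x.den (N * r) → Jq φ x = 0) (γ : Gamma0 N)
    (hd : ¬ (r : ℤ) ∣ (γ : SL(2, ℤ)) 1 1) : φ (Additive.ofMul γ) = 0 := by
  have hd0 : (γ : SL(2, ℤ)) 1 1 ≠ 0 := by
    intro h0
    apply hd
    rw [h0]
    exact dvd_zero _
  have hdQ : (((γ : SL(2, ℤ)) 1 1 : ℤ) : ℚ) ≠ 0 := by exact_mod_cast hd0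
  have hrep : Rep γ ((((γ : SL(2, ℤ)) 0 1 : ℤ) : ℚ) / (((γ : SL(2, ℤ)) 1 1 : ℤ) : ℚ)) :=
    ⟨hd0, (div_mul_cancel₀ _ hdQ).symm⟩
  rw [← Jq_eq hφ hrep]
  apply h
  apply Nat.Coprime.mul_right hrep.den_coprime
  rw [hrep.den_eq]
  apply Nat.Coprime.symm
  rw [Nat.Prime.coprime_iff_not_dvd hr]
  intro hdvd
  exact hd (Int.natCast_dvd.2 hdvd)

/-- TASK `S41/Ih-Zero`.  (board #3136 (g))  `γ = (a,b;c,d)`.  If `r ∤ d`: `d ≠ 0`, `Rep γ (b/d)`, `Rep.den_eq`, `Rep.den_coprime`: the denominator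
`|d|` is prime to `N` and to `r` (`Nat.Coprime.mul_right`, `Nat.Prime.coprime_iff_not_dvd`), so `φ γ = Jq φ (b/d) = 0`.
If `r ∣ d`: `γ' := γ * ⟨T, _⟩` has `γ' 1 1 = c + d`, `r ∤ c` (`det = 1`), `φ γ' = φ γ + φ T = φ γ`. -/
theorem eq_zero_of_Jq {r : ℕ} (hr : r.Prime) {φ : Additive (Gamma0 N) →+ A}
    (hφ : IsParabolicHom (Gamma0 N) φ)
    (h : ∀ x : ℚ, Nat.Coprime x.den (N * r) → Jq φ x = 0) : φ = 0 := by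
  refine AddMonoidHom.ext fun γ' => ?_
  obtain ⟨γ, rfl⟩ := Additive.ofMul.surjective γ'
  rw [AddMonoidHom.zero_apply]
  by_cases hd : (r : ℤ) ∣ (γ : SL(2, ℤ)) 1 1
  · have hT00 : ((⟨ModularGroup.T, Fermat.Agent.S21.T_mem_Gamma0 N⟩ : Gamma0 N) : SL(2, ℤ)) 0 0
        = 1 := by
      change (ModularGroup.T : SL(2, ℤ)) 0 0 = 1
      rw [ModularGroup.coe_T]; rfl
    have hT01 : ((⟨ModularGroup.T, Fermat.Agent.S21.T_mem_Gamma0 N⟩ : Gamma0 N) : SL(2, ℤ)) 0 1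
        = 1 := by
      change (ModularGroup.T : SL(2, ℤ)) 0 1 = 1
      rw [ModularGroup.coe_T]; rfl
    have hT11 : ((⟨ModularGroup.T, Fermat.Agent.S21.T_mem_Gamma0 N⟩ : Gamma0 N) : SL(2, ℤ)) 1 1
        = 1 := by
      change (ModularGroup.T : SL(2, ℤ)) 1 1 = 1
      rw [ModularGroup.coe_T]; rfl
    have hφT : φ (Additive.ofMul
        (⟨ModularGroup.T, Fermat.Agent.S21.T_mem_Gamma0 N⟩ : Gamma0 N)) = 0 := by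
      apply hφ
      rw [Matrix.trace_fin_two, hT00, hT11]
      norm_num
    have h11 : (((γ * ⟨ModularGroup.T, Fermat.Agent.S21.T_mem_Gamma0 N⟩ : Gamma0 N) :
        SL(2, ℤ)) 1 1 : ℤ) = (γ : SL(2, ℤ)) 1 0 + (γ : SL(2, ℤ)) 1 1 := by
      rw [Subgroup.coe_mul, Matrix.SpecialLinearGroup.coe_mul, Matrix.mul_apply,
        Fin.sum_univ_two, hT01, hT11, mul_one, mul_one]
    have hnd : ¬ (r : ℤ) ∣ ((γ * ⟨ModularGroup.T, Fermat.Agent.S21.T_mem_Gamma0 N⟩ : Gamma0 N) :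
        SL(2, ℤ)) 1 1 := by
      rw [h11]
      intro hdvd
      have h10 : (r : ℤ) ∣ (γ : SL(2, ℤ)) 1 0 := (dvd_add_left hd).1 hdvd
      have h1 : (r : ℤ) ∣ 1 := by
        rw [← IhDen_det γ]
        exact dvd_sub (Dvd.dvd.mul_left hd _) (Dvd.dvd.mul_left h10 _)
      have h2 : r ∣ 1 := by exact_mod_cast h1
      exact hr.one_lt.ne' (Nat.dvd_one.1 h2)
    have h0 := IhZero_aux hr hφ h _ hnd
    rwa [ofMul_mul, map_add, hφT, add_zero] at h0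
  · exact IhZero_aux hr hφ h γ hd

/-- the selection hypothesis (proved in block C). -/
def Sel (p r : ℕ) (S : Finset ℕ) (a : ℕ → ℤ) : Prop :=
  ∀ m o : ℕ, 0 < m → 0 < o → ∃ ℓ : ℕ, ℓ.Prime ∧ ℓ ∉ S ∧ ℓ ≡ 1 [MOD m] ∧
    p ∣ orderOf ((r : ZMod ℓ) ^ (2 * o)) ∧ ¬ (p : ℤ) ∣ a ℓ - 2

/-- TASK `S41/Ih-Van`.  `m := x.den`, `o := Nat.totient m` (`Nat.totient_pos`), `r ^ (2 o) = (r ^ o)^2 ≡ 1`
(`Nat.ModEq.pow_totient`, `r` prime to `m` because `m` is prime to `N r`).  `hsel m o` gives `ℓ`; `ℓ ∤ N r` by `hNS`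
(so `Nat.Coprime ℓ (N * r)`: `Nat.Prime.coprime_iff_not_dvd`).  `key` with `A = ZMod p`, `hpA a : p • a = 0`
(`nsmul_eq_mul`, `ZMod.natCast_self`/`CharP.cast_eq_zero`), `θ = a ℓ`.  `(a ℓ - 2) • J = ((a ℓ - 2 : ℤ) : ZMod p) * J`
(`zsmul_eq_mul`), first factor `≠ 0` (`ZMod.intCast_zmod_eq_zero_iff_dvd`), `ZMod p` is a field. -/
theorem Jq_eq_zero {r p : ℕ} [Fact p.Prime] (S : Finset ℕ)
    (hNS : ∀ q : ℕ, q.Prime → q ∣ N * r → q ∈ S) (a : ℕ → ℤ) (hsel : Sel p r S a)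
    {φ : Additive (Gamma0 N) →+ ZMod p} (hφ : IsParabolicHom (Gamma0 N) φ) (hInv : Inv r φ)
    (he : ∀ (ℓ : ℕ) [Fact ℓ.Prime] (hℓN : ¬ ℓ ∣ N), ℓ ∉ S →
      heckeHom N ℓ hℓN (ZMod p) φ = a ℓ • φ)
    (x : ℚ) (hx : Nat.Coprime x.den (N * r)) : Jq φ x = 0 := by
  have hm : 0 < x.den := x.den_pos
  have ho : 0 < Nat.totient x.den := Nat.totient_pos.mpr hm
  obtain ⟨ℓ, hℓ, hℓS, hℓ1, hord, hne⟩ := hsel x.den (Nat.totient x.den) hm ho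
  have : Fact ℓ.Prime := ⟨hℓ⟩
  have hℓNr : ¬ ℓ ∣ N * r := fun h => hℓS (hNS ℓ hℓ h)
  have hℓN : ¬ ℓ ∣ N := fun h => hℓNr (h.mul_right r)
  have hcop : Nat.Coprime ℓ (N * r) := (Nat.Prime.coprime_iff_not_dvd hℓ).mpr hℓNr
  have hrm : Nat.Coprime r x.den :=
    (Nat.Coprime.coprime_dvd_right (Dvd.intro_left N rfl) hx).symm
  have hV : r ^ (2 * Nat.totient x.den) ≡ 1 [MOD x.den] := by
    have h1 : r ^ Nat.totient x.den ≡ 1 [MOD x.den] := Nat.ModEq.pow_totient hrm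
    have h2 := h1.pow 2
    rwa [one_pow, ← pow_mul, mul_comm] at h2
  have hpA : ∀ b : ZMod p, p • b = 0 := fun b => by
    rw [nsmul_eq_mul, CharP.cast_eq_zero, zero_mul]
  have hk := key hℓN hφ hpA hInv hcop (a ℓ) (he ℓ hℓN hℓS) x hx hℓ1 (Nat.totient x.den) hV hord
  rw [zsmul_eq_mul] at hk
  rcases mul_eq_zero.mp hk with h0 | h0
  · exact absurd ((ZMod.intCast_zmod_eq_zero_iff_dvd _ p).mp h0) hne
  · exact h0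

/-- **Ihara's lemma for eigenvectors.** -/
theorem ihara {r p : ℕ} [Fact p.Prime] (hr : r.Prime) (hrN : ¬ r ∣ N) (S : Finset ℕ)
    (hNS : ∀ q : ℕ, q.Prime → q ∣ N * r → q ∈ S) (a : ℕ → ℤ) (hsel : Sel p r S a)
    (φ₁ φ₂ : Additive (Gamma0 N) →+ ZMod p)
    (h₁ : IsParabolicHom (Gamma0 N) φ₁) (h₂ : IsParabolicHom (Gamma0 N) φ₂)
    (e₁ : ∀ (ℓ : ℕ) [Fact ℓ.Prime] (hℓN : ¬ ℓ ∣ N), ℓ ∉ S →
      heckeHom N ℓ hℓN (ZMod p) φ₁ = a ℓ • φ₁)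
    (e₂ : ∀ (ℓ : ℕ) [Fact ℓ.Prime] (hℓN : ¬ ℓ ∣ N), ℓ ∉ S →
      heckeHom N ℓ hℓN (ZMod p) φ₂ = a ℓ • φ₂)
    (R : Rel r φ₁ φ₂) : φ₁ = 0 ∧ φ₂ = 0 := by
  have R' : Rel r φ₂ φ₁ := R.swap ((Nat.Prime.coprime_iff_not_dvd hr).2 hrN)
  exact ⟨eq_zero_of_Jq hr h₁ (Jq_eq_zero S hNS a hsel h₁ (R.inv h₁ h₂ R') e₁),
    eq_zero_of_Jq hr h₂ (Jq_eq_zero S hNS a hsel h₂ (R'.inv h₂ h₁ R) e₂)⟩

end Fermat.Agent.S41.Ih
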