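import Fermat.Agent.S41.Ih.Sym

/-!
# S41 / Ih : the Hecke relation for the modular symbol (board #3136 (d))

`J(ℓ x) + ∑_{j mod ℓ} J((x + j)/ℓ) = θ J(x) + κ_ℓ` if `T_ℓ φ = θ φ`.
-/

set_option autoImplicit false

open CongruenceSubgroup Matrix.SpecialLinearGroup ModularForm
open scoped MatrixGroups

namespace Fermat.Agent.S41.Ih

open Fermat.Agent.ES.Coh Fermat.Agent.S16.Shimura ModularCurve ModularCurve.Period
open P2MW.S_ModularForm_heckeT_slash_eq_self_of_mem_Gamma0.ModularForm.HeckeSlashInvariance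

variable {N : ℕ} {A : Type} [AddCommGroup A]

/-- the action of `heckeRep ℓ z` on `ℚ`: `∞ ↦ ℓ x`, `j ↦ (x + j)/ℓ`. -/
def act (ℓ : ℕ) (z : OnePoint (ZMod ℓ)) (x : ℚ) : ℚ :=
  Option.elim z ((ℓ : ℚ) * x) (fun j => (x + (j.val : ℚ)) / (ℓ : ℚ))

theorem act_infty (ℓ : ℕ) (x : ℚ) : act ℓ OnePoint.infty x = (ℓ : ℚ) * x := rfl

theorem act_coe (ℓ : ℕ) (j : ZMod ℓ) (x : ℚ) :
    act ℓ (j : OnePoint (ZMod ℓ)) x = (x + (j.val : ℚ)) / (ℓ : ℚ) := rfl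

/-- TASK `S41/Ih-ActDen`.  General fact: `(y / ℓ).den ∣ y.den * ℓ`, `(x + n).den = x.den`, `(ℓ * x).den ∣ x.den`
(`Rat.mul_den_dvd`, `Rat.add_den_dvd`, `Rat.den_dvd`, ...), then `Nat.Coprime.coprime_dvd_left`,
`Nat.Coprime.mul_left`.  Induction on `z`: `induction z using OnePoint.rec`. -/
theorem act_den_coprime {ℓ M : ℕ} (hℓ : ℓ ≠ 0) (hℓM : Nat.Coprime ℓ M) (z : OnePoint (ZMod ℓ)) {x : ℚ}
    (hx : Nat.Coprime x.den M) : Nat.Coprime (act ℓ z x).den M := by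
  induction z using OnePoint.rec with
  | infty =>
    rw [act_infty]
    have h1 : ((ℓ : ℚ) * x).den ∣ (ℓ : ℚ).den * x.den := Rat.mul_den_dvd _ _
    rw [Rat.den_natCast, one_mul] at h1
    exact Nat.Coprime.coprime_dvd_left h1 hx
  | coe j =>
    rw [act_coe, div_eq_mul_inv]
    have h1 : ((x + (j.val : ℚ)) * (ℓ : ℚ)⁻¹).den ∣ (x + (j.val : ℚ)).den * ((ℓ : ℚ)⁻¹).den :=
      Rat.mul_den_dvd _ _
    have h2 : (x + (j.val : ℚ)).den ∣ x.den * ((j.val : ℕ) : ℚ).den := Rat.add_den_dvd _ _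
    rw [Rat.den_natCast, mul_one] at h2
    have h3 : ((ℓ : ℚ)⁻¹).den = ℓ := by
      rw [Rat.inv_natCast_den, if_neg hℓ]
    rw [h3] at h1
    exact Nat.Coprime.coprime_dvd_left h1
      (Nat.Coprime.mul_left (Nat.Coprime.coprime_dvd_left h2 hx) hℓM)

section

variable (ℓ : ℕ) [Fact ℓ.Prime] (hℓN : ¬ ℓ ∣ N)

theorem IhCorr_heckeRep_val (z : OnePoint (ZMod ℓ)) : ∃ a b d : ℤ, d ≠ 0 ∧
    ((heckeRep ℓ z : GL (Fin 2) ℝ) : Matrix (Fin 2) (Fin 2) ℝ)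
      = !![(a : ℝ), (b : ℝ); 0, (d : ℝ)] ∧
    ∀ x : ℚ, act ℓ z x = ((a : ℚ) * x + (b : ℚ)) / (d : ℚ) := by
  have hℓ : ℓ ≠ 0 := (Fact.out : ℓ.Prime).ne_zero
  induction z using OnePoint.rec with
  | infty =>
    refine ⟨ℓ, 0, 1, one_ne_zero, ?_, fun x => ?_⟩
    · rw [heckeRep_infty, val_heckeDiagMatrix hℓ]
      simp
    · rw [act_infty]
      simp
  | coe j =>
    refine ⟨1, j.val, ℓ, by exact_mod_cast hℓ, ?_, fun x => ?_⟩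
    · rw [heckeRep_coe, val_heckeMatrix hℓ]
      simp
    · rw [act_coe]
      simp

/-- TASK `S41/Ih-Corr`.  Let `c := corrT N ℓ hℓN γ z`, `z' := redMatrix ℓ γ • z`, `t := act ℓ z' 0`
(`= j'/ℓ` or `0`).  `corrT_spec N ℓ hℓN γ z : heckeRep ℓ z * mapGL ℝ γ = mapGL ℝ c * heckeRep ℓ z'` in
`GL (Fin 2) ℝ`.  Compare the entries `(0,1)` and `(1,1)` (4 cases `z, z' ∈ {∞, coe}`:
`heckeRep_infty`, `heckeRep_coe`, `val_heckeMatrix`, `val_heckeDiagMatrix`, `mapGL_apply`/`Matrix.mul_apply`, see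
`S16/Shimura/Psi.lean : corrT_entry` for the technique), get integer (cast to `ℝ`, `exact_mod_cast`) identities
  `z = j, z' = j'`: `c00 j' + c01 ℓ = γ01 + j γ11`, `c10 j' + c11 ℓ = ℓ γ11`;
  `z = j, z' = ∞`: `c01 = γ01 + j γ11`, `c11 = ℓ γ11`;  `z = ∞, z' = j'`: `c00 j' + c01 ℓ = ℓ γ01`, `c10 j' + c11 ℓ = γ11`;
  `z = ∞, z' = ∞`: `c01 = ℓ γ01`, `c11 = γ11`.
Then `Jq_smul' hφ c t (act ℓ z x)` (`act_den_coprime` with `x = 0`, `Rat.den_zero`; `γ01 = x γ11`, `γ11 ≠ 0`). -/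
theorem Jq_act {φ : Additive (Gamma0 N) →+ A} (hφ : IsParabolicHom (Gamma0 N) φ)
    {γ : Gamma0 N} {x : ℚ} (h : Rep γ x) (z : OnePoint (ZMod ℓ)) :
    Jq φ (act ℓ z x) = φ (Additive.ofMul (corrT N ℓ hℓN γ z))
      + Jq φ (act ℓ (redMatrix ℓ (γ : SL(2, ℤ)) • z) 0) := by
  have hℓ : ℓ ≠ 0 := (Fact.out : ℓ.Prime).ne_zero
  have hcop : Nat.Coprime ℓ N := (Nat.Prime.coprime_iff_not_dvd Fact.out).2 hℓN
  have hs := corrT_spec N ℓ hℓN γ z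
  obtain ⟨a, b, d, hd, hM, hact⟩ := IhCorr_heckeRep_val ℓ z
  obtain ⟨a', b', d', hd', hM', hact'⟩ := IhCorr_heckeRep_val ℓ (redMatrix ℓ (γ : SL(2, ℤ)) • z)
  have h01 := congrArg (fun g : GL (Fin 2) ℝ => (g : Matrix (Fin 2) (Fin 2) ℝ) 0 1) hs
  have h11 := congrArg (fun g : GL (Fin 2) ℝ => (g : Matrix (Fin 2) (Fin 2) ℝ) 1 1) hs
  simp only [Units.val_mul, hM, hM', Matrix.mul_apply, Fin.sum_univ_two,
    Matrix.SpecialLinearGroup.mapGL_coe_matrix] at h01 h11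
  simp at h01 h11
  have e01 : a * (γ : SL(2, ℤ)) 0 1 + b * (γ : SL(2, ℤ)) 1 1
      = (corrT N ℓ hℓN γ z : SL(2, ℤ)) 0 0 * b' + (corrT N ℓ hℓN γ z : SL(2, ℤ)) 0 1 * d' := by
    exact_mod_cast h01
  have e11 : d * (γ : SL(2, ℤ)) 1 1
      = (corrT N ℓ hℓN γ z : SL(2, ℤ)) 1 0 * b' + (corrT N ℓ hℓN γ z : SL(2, ℤ)) 1 1 * d' := by
    exact_mod_cast h11
  have q01 := congrArg (Int.cast : ℤ → ℚ) e01
  have q11 := congrArg (Int.cast : ℤ → ℚ) e11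
  push_cast at q01 q11
  obtain ⟨hγ, hx⟩ := h
  have hγQ : (((γ : SL(2, ℤ)) 1 1 : ℤ) : ℚ) ≠ 0 := by exact_mod_cast hγ
  have hdQ : (d : ℚ) ≠ 0 := by exact_mod_cast hd
  have hdQ' : (d' : ℚ) ≠ 0 := by exact_mod_cast hd'
  have ht : act ℓ (redMatrix ℓ (γ : SL(2, ℤ)) • z) 0 = (b' : ℚ) / d' := by
    rw [hact', mul_zero, zero_add]
  have hden : (((corrT N ℓ hℓN γ z : SL(2, ℤ)) 1 0 : ℤ) : ℚ)
        * act ℓ (redMatrix ℓ (γ : SL(2, ℤ)) • z) 0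
      + (((corrT N ℓ hℓN γ z : SL(2, ℤ)) 1 1 : ℤ) : ℚ)
      = (d : ℚ) * (((γ : SL(2, ℤ)) 1 1 : ℤ) : ℚ) / d' := by
    rw [ht, q11]
    field_simp
  refine Jq_smul' hφ (corrT N ℓ hℓN γ z) _ _
    (act_den_coprime hℓ hcop _ (by rw [Rat.den_zero]; exact Nat.coprime_one_left N)) ?_ ?_
  · rw [hden]
    exact div_ne_zero (mul_ne_zero hdQ hγQ) hdQ'
  · rw [hden, ht, hact]
    have h3 : (((corrT N ℓ hℓN γ z : SL(2, ℤ)) 0 0 : ℤ) : ℚ) * ((b' : ℚ) / d')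
        + (((corrT N ℓ hℓN γ z : SL(2, ℤ)) 0 1 : ℤ) : ℚ)
        = ((a : ℚ) * (((γ : SL(2, ℤ)) 0 1 : ℤ) : ℚ) + b * (((γ : SL(2, ℤ)) 1 1 : ℤ) : ℚ)) / d' := by
      rw [q01]
      field_simp
    rw [h3, hx]
    field_simp

/-- **the Hecke relation.** -/
theorem hecke_rel {φ : Additive (Gamma0 N) →+ A} (hφ : IsParabolicHom (Gamma0 N) φ) (θ : ℤ)
    (hT : heckeHom N ℓ hℓN A φ = θ • φ) (x : ℚ) (hx : Nat.Coprime x.den N) :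
    ∑ z : OnePoint (ZMod ℓ), Jq φ (act ℓ z x)
      = θ • Jq φ x + ∑ z : OnePoint (ZMod ℓ), Jq φ (act ℓ z 0) := by
  obtain ⟨γ, hγ, -, -⟩ := exists_rep (N := N) x hx
  simp only [Jq_act ℓ hℓN hφ hγ, Finset.sum_add_distrib]
  congr 1
  · rw [← heckeHom_apply, hT, Jq_eq hφ hγ]
    rfl
  · exact Equiv.sum_comp (permT N ℓ γ) (fun z => Jq φ (act ℓ z 0))

/-- the Hecke relation, expanded. -/
theorem hecke_rel' {φ : Additive (Gamma0 N) →+ A} (hφ : IsParabolicHom (Gamma0 N) φ) (θ : ℤ)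
    (hT : heckeHom N ℓ hℓN A φ = θ • φ) (x : ℚ) (hx : Nat.Coprime x.den N) :
    Jq φ ((ℓ : ℚ) * x) + ∑ j : ZMod ℓ, Jq φ ((x + (j.val : ℚ)) / (ℓ : ℚ))
      = θ • Jq φ x + ∑ j : ZMod ℓ, Jq φ ((0 + (j.val : ℚ)) / (ℓ : ℚ)) := by
  have h := hecke_rel ℓ hℓN hφ θ hT x hx
  have e : ∀ y : ℚ, ∑ z : OnePoint (ZMod ℓ), Jq φ (act ℓ z y)
      = Jq φ ((ℓ : ℚ) * y) + ∑ j : ZMod ℓ, Jq φ ((y + (j.val : ℚ)) / (ℓ : ℚ)) := fun y =>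
    Fintype.sum_option (fun z : OnePoint (ZMod ℓ) => Jq φ (act ℓ z y))
  rw [e x, e 0, mul_zero, Jq_zero hφ, zero_add] at h
  exact h

end

end Fermat.Agent.S41.Ih
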