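import Fermat.Agent.ES.Coh.Defs

/-!
# S41 / Ih : the orbit sum lemma (board #3136 (e)), abstract form
-/

set_option autoImplicit false

namespace Fermat.Agent.S41.Ih

/-- TASK `S41/Ih-Orbit`.  `s : Equiv.Perm (ZMod ℓ)`, `s j = j0 + v * (j - j0)` (inverse with `v⁻¹`, `ZMod ℓ` is a field).
`(s ^ k) j = j0 + v ^ k * (j - j0)` (induction).  Apply `ES.Coh.sum_eq_zero_of_orbit_sums s G` to
`G j := if j = j0 then 0 else F j`: if `(s ^ k) x = x`, `0 < k`: for `x = j0` all terms vanish (`(s^i) j0 = j0`);
for `x ≠ j0`: `v ^ k = 1`, so `orderOf v ∣ k`, `p ∣ k`; `(s ^ i) x ≠ j0` and `F ((s ^ i) x) = F x` (induction, `hF`), so the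
sum is `k • F x = 0`.  Finally `∑ F = ∑ G + F j0` (`Finset.sum_ite`/`Finset.sum_erase`/`Finset.add_sum_erase`). -/
theorem sum_eq_of_affine {ℓ p : ℕ} [Fact ℓ.Prime] {A : Type} [AddCommGroup A]
    (hpA : ∀ a : A, p • a = 0) (v : ZMod ℓ) (hv0 : v ≠ 0) (hv : p ∣ orderOf v) (j0 : ZMod ℓ)
    (F : ZMod ℓ → A) (hF : ∀ j, F (j0 + v * (j - j0)) = F j) : ∑ j, F j = F j0 := by
  classical
  let s : Equiv.Perm (ZMod ℓ) :=
    { toFun := fun j => j0 + v * (j - j0)
      invFun := fun j => j0 + v⁻¹ * (j - j0)
      left_inv := fun j => by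
        simp only [add_sub_cancel_left]
        rw [← mul_assoc, inv_mul_cancel₀ hv0, one_mul]; ring
      right_inv := fun j => by
        simp only [add_sub_cancel_left]
        rw [← mul_assoc, mul_inv_cancel₀ hv0, one_mul]; ring }
  have hs : ∀ j, s j = j0 + v * (j - j0) := fun _ => rfl
  have hpow : ∀ (k : ℕ) (j : ZMod ℓ), (s ^ k) j = j0 + v ^ k * (j - j0) := by
    intro k
    induction k with
    | zero => intro j; simp
    | succ k ih =>
      intro j
      rw [pow_succ', Equiv.Perm.mul_apply, ih, hs]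
      ring
  have hFpow : ∀ (k : ℕ) (j : ZMod ℓ), F ((s ^ k) j) = F j := by
    intro k
    induction k with
    | zero => intro j; simp
    | succ k ih =>
      intro j
      rw [pow_succ', Equiv.Perm.mul_apply, hs, hF, ih]
  let G : ZMod ℓ → A := fun j => if j = j0 then 0 else F j
  have hG : ∑ j, G j = 0 := by
    refine ES.Coh.sum_eq_zero_of_orbit_sums s G fun x k hk hx => ?_
    by_cases hx0 : x = j0
    · refine Finset.sum_eq_zero fun i _ => ?_
      have : (s ^ i) x = j0 := by rw [hpow, hx0]; simp
      simp [G, this]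
    · have hne : x - j0 ≠ 0 := sub_ne_zero.2 hx0
      have hvk : v ^ k = 1 := by
        have h1 := hx
        rw [hpow] at h1
        have h2 : (v ^ k - 1) * (x - j0) = 0 := by
          linear_combination h1
        rcases mul_eq_zero.1 h2 with h3 | h3
        · exact sub_eq_zero.1 h3
        · exact absurd h3 hne
      have hpk : p ∣ k := hv.trans (orderOf_dvd_of_pow_eq_one hvk)
      have hterm : ∀ i ∈ Finset.range k, G ((s ^ i) x) = F x := by
        intro i _
        have hne' : (s ^ i) x ≠ j0 := by
          rw [hpow]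
          intro h
          have : v ^ i * (x - j0) = 0 := by linear_combination h
          rcases mul_eq_zero.1 this with h3 | h3
          · exact pow_ne_zero i hv0 h3
          · exact hne h3
        simp only [G, if_neg hne', hFpow]
      rw [Finset.sum_congr rfl hterm, Finset.sum_const, Finset.card_range]
      obtain ⟨c, rfl⟩ := hpk
      rw [mul_comm, mul_smul, hpA, smul_zero]
  have hsplit : ∑ j, F j = ∑ j, G j + F j0 := by
    have h1 : ∀ j, F j = G j + (if j = j0 then F j0 else 0) := by
      intro j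
      by_cases h : j = j0
      · simp [G, h]
      · simp [G, h]
    rw [Finset.sum_congr rfl fun j _ => h1 j, Finset.sum_add_distrib]
    simp
  rw [hsplit, hG, zero_add]

end Fermat.Agent.S41.Ih
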