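import Fermat.Agent.S41.Ih.Hecke
import Fermat.Agent.S41.Ih.Orbit

/-!
# S41 / Ih : the key step (board #3136 (e)):  `(θ - 2) J(x) = 0`

`φ` with `J(r² y) = J(y)` for all `y` with denominator prime to `N r`; `T_ℓ φ = θ φ`; `x = k/m`; `V = r^(2o) ≡ 1 mod m`;
`ℓ ≡ 1 mod m`; `p ∣ ord(V mod ℓ)`; `p A = 0`.
-/

set_option autoImplicit false

open CongruenceSubgroup Matrix.SpecialLinearGroup
open scoped MatrixGroups

namespace Fermat.Agent.S41.Ih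

open Fermat.Agent.ES.Coh Fermat.Agent.S16.Shimura ModularCurve ModularCurve.Period

variable {N : ℕ} {A : Type} [AddCommGroup A]

/-- invariance of the modular symbol under multiplication by `r²`. -/
def Inv (r : ℕ) (φ : Additive (Gamma0 N) →+ A) : Prop :=
  ∀ y : ℚ, Nat.Coprime y.den (N * r) → Jq φ ((r : ℚ) ^ 2 * y) = Jq φ y

/-- TASK `S41/Ih-Pow`. `Rat.mul_den_dvd`, `Rat.den_natCast`. -/
theorem den_natCast_mul_dvd (n : ℕ) (y : ℚ) : ((n : ℚ) * y).den ∣ y.den := by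
  have h := Rat.mul_den_dvd (n : ℚ) y
  rwa [Rat.den_natCast, one_mul] at h

/-- TASK `S41/Ih-Pow` (same task).  Induction on `o`: `r^(2(o+1)) y = r² (r^(2o) y)`; the denominator of `r^(2o) y`
divides `y.den` (`den_natCast_mul_dvd`, `Nat.Coprime.coprime_dvd_left`, `push_cast`). -/
theorem Inv.pow {r : ℕ} {φ : Additive (Gamma0 N) →+ A} (h : Inv r φ) (o : ℕ) (y : ℚ)
    (hy : Nat.Coprime y.den (N * r)) : Jq φ (((r ^ (2 * o) : ℕ) : ℚ) * y) = Jq φ y := by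
  induction o with
  | zero => simp
  | succ o ih =>
    have h1 : (((r ^ (2 * (o + 1)) : ℕ) : ℚ) * y) = (r : ℚ) ^ 2 * (((r ^ (2 * o) : ℕ) : ℚ) * y) := by
      push_cast
      ring
    rw [h1, h _ (Nat.Coprime.coprime_dvd_left (den_natCast_mul_dvd _ y) hy), ih]

/-- the fixed point `- x mod ℓ`. -/
def fixPt (ℓ : ℕ) (x : ℚ) : ZMod ℓ := -((x.num : ZMod ℓ) * ((x.den : ZMod ℓ))⁻¹)

/-- TASK `S41/Ih-Shift`.  `k = x.num`, `m = x.den`, `x = k / m` (`Rat.num_div_den`), `V = 1 + t m` in `ℤ`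
(`(Nat.modEq_iff_dvd).1 hV.symm` or `Nat.ModEq.dvd`).  `j' := fixPt + V (j - fixPt)`.
The integer `e := j'.val - V j.val - t k` is `0` in `ZMod ℓ` (`push_cast`, `ZMod.natCast_zmod_val`,
`(m : ZMod ℓ) ≠ 0` by coprimality (`ZMod.natCast_eq_zero_iff`, `Nat.Prime.coprime_iff_not_dvd`), `field_simp`, `ring`), so `e = ℓ n`
(`ZMod.intCast_zmod_eq_zero_iff_dvd`).  Then `field_simp`/`linear_combination` in `ℚ`. -/
theorem exists_shift {ℓ : ℕ} [Fact ℓ.Prime] (x : ℚ) (hℓx : Nat.Coprime ℓ x.den) (V : ℕ)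
    (hV : V ≡ 1 [MOD x.den]) (j : ZMod ℓ) :
    ∃ n : ℤ, (x + ((fixPt ℓ x + (V : ZMod ℓ) * (j - fixPt ℓ x)).val : ℚ)) / (ℓ : ℚ)
      = (V : ℚ) * ((x + (j.val : ℚ)) / (ℓ : ℚ)) + n := by
  have hm0 : (x.den : ℚ) ≠ 0 := by exact_mod_cast x.den_nz
  have hx : (x.num : ℚ) = x * (x.den : ℚ) := (Rat.mul_den_eq_num x).symm
  obtain ⟨t, ht⟩ : ∃ t : ℤ, (V : ℤ) = 1 + t * (x.den : ℤ) := by
    obtain ⟨t, ht⟩ := Nat.modEq_iff_dvd.1 hV.symm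
    exact ⟨t, by push_cast at ht; linarith⟩
  have hmℓ : (x.den : ZMod ℓ) ≠ 0 := by
    rw [Ne, ZMod.natCast_eq_zero_iff]
    intro h
    exact (Fact.out : ℓ.Prime).one_lt.ne' (Nat.Coprime.eq_one_of_dvd hℓx h)
  have hVz : (V : ZMod ℓ) = 1 + (t : ZMod ℓ) * (x.den : ZMod ℓ) := by
    exact_mod_cast congrArg (Int.cast : ℤ → ZMod ℓ) ht
  have he : ((((fixPt ℓ x + (V : ZMod ℓ) * (j - fixPt ℓ x)).val : ℤ) - (V : ℤ) * (j.val : ℤ)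
      - t * x.num : ℤ) : ZMod ℓ) = 0 := by
    push_cast
    rw [ZMod.natCast_zmod_val, ZMod.natCast_zmod_val, fixPt, hVz]
    field_simp
    ring
  obtain ⟨n, hn⟩ := (ZMod.intCast_zmod_eq_zero_iff_dvd _ ℓ).1 he
  refine ⟨n, ?_⟩
  have hℓ0 : (ℓ : ℚ) ≠ 0 := by exact_mod_cast (Fact.out : ℓ.Prime).ne_zero
  have hnq : (((fixPt ℓ x + (V : ZMod ℓ) * (j - fixPt ℓ x)).val : ℚ) - (V : ℚ) * (j.val : ℚ)
      - (t : ℚ) * (x.num : ℚ)) = (ℓ : ℚ) * (n : ℚ) := by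
    exact_mod_cast congrArg (Int.cast : ℤ → ℚ) hn
  have hVq : (V : ℚ) = 1 + (t : ℚ) * (x.den : ℚ) := by
    exact_mod_cast congrArg (Int.cast : ℤ → ℚ) ht
  rw [div_eq_iff hℓ0]
  have e : ((V : ℚ) * ((x + (j.val : ℚ)) / (ℓ : ℚ)) + n) * (ℓ : ℚ)
      = (V : ℚ) * (x + (j.val : ℚ)) + (ℓ : ℚ) * n := by
    field_simp
  rw [e, ← hnq, hx, hVq]
  ring

/-- TASK `S41/Ih-Fixed`.  `k = x.num`, `m = x.den`, `j0 = (fixPt ℓ x).val`.  `ℓ ∣ k + m j0` (it is `0` in `ZMod ℓ`),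
`m ∣ ℓ - 1`, `(ℓ, m) = 1` (`Nat.ModEq.gcd_eq`): so `m ℓ ∣ k + m j0 - ℓ k` (`IsCoprime.mul_dvd`); divide. -/
theorem exists_fixed {ℓ : ℕ} [Fact ℓ.Prime] (x : ℚ) (hℓ : ℓ ≡ 1 [MOD x.den]) :
    ∃ n : ℤ, (x + ((fixPt ℓ x).val : ℚ)) / (ℓ : ℚ) = x + n := by
  have hp : ℓ.Prime := Fact.out
  have hcop : Nat.Coprime ℓ x.den := by
    have h1 := hℓ.gcd_eq
    rwa [Nat.gcd_one_left] at h1
  obtain ⟨t, ht⟩ := Nat.modEq_iff_dvd.1 hℓ.symm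
  have ht' : (ℓ : ℤ) - 1 = x.den * t := by exact_mod_cast ht
  have hm0 : (x.den : ZMod ℓ) ≠ 0 := by
    rw [Ne, ZMod.natCast_eq_zero_iff]
    exact (Nat.Prime.coprime_iff_not_dvd hp).1 hcop
  have h1 : (ℓ : ℤ) ∣ x.num + x.den * ((fixPt ℓ x).val : ℤ) - ℓ * x.num := by
    rw [← ZMod.intCast_zmod_eq_zero_iff_dvd]
    push_cast
    rw [ZMod.natCast_zmod_val, fixPt, ZMod.natCast_self, zero_mul, sub_zero, mul_neg,
      mul_comm (x.num : ZMod ℓ), mul_inv_cancel_left₀ hm0, add_neg_cancel]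
  have h2 : (x.den : ℤ) ∣ x.num + x.den * ((fixPt ℓ x).val : ℤ) - ℓ * x.num :=
    ⟨((fixPt ℓ x).val : ℤ) - t * x.num, by linear_combination (-x.num) * ht'⟩
  have hco : IsCoprime (ℓ : ℤ) (x.den : ℤ) := Nat.isCoprime_iff_coprime.2 hcop
  obtain ⟨n, hn⟩ := hco.mul_dvd h1 h2
  refine ⟨n, ?_⟩
  have hℓ0 : (ℓ : ℚ) ≠ 0 := Nat.cast_ne_zero.2 hp.ne_zero
  have hm : (x.den : ℚ) ≠ 0 := Nat.cast_ne_zero.2 x.den_ne_zero
  have hx : x * x.den = x.num := Rat.mul_den_eq_num x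
  have hn' : (x.num : ℚ) + x.den * ((fixPt ℓ x).val : ℚ) - ℓ * x.num = ℓ * x.den * n := by
    exact_mod_cast hn
  rw [div_eq_iff hℓ0]
  apply mul_right_cancel₀ hm
  linear_combination (1 - (ℓ : ℚ)) * hx + hn'

/-- TASK `S41/Ih-Fixed` (same task). `(ℓ - 1) x ∈ ℤ`. -/
theorem exists_mul_eq {ℓ : ℕ} (x : ℚ) (hℓ : ℓ ≡ 1 [MOD x.den]) :
    ∃ n : ℤ, (ℓ : ℚ) * x = x + n := by
  obtain ⟨t, ht⟩ := Nat.modEq_iff_dvd.1 hℓ.symm
  refine ⟨t * x.num, ?_⟩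
  have hx : x * x.den = x.num := Rat.mul_den_eq_num x
  have ht' : (ℓ : ℚ) - 1 = x.den * t := by exact_mod_cast ht
  push_cast
  linear_combination x * ht' + t * hx

/-- TASK `S41/Ih-SumShift`.  `sum_eq_of_affine hpA (v := ((r ^ (2*o) : ℕ) : ZMod ℓ)) _ _ (fixPt ℓ x) (fun j => Jq φ ((x + j.val)/ℓ))`.
`v ≠ 0`: `ℓ ∤ r` (coprime to `N r`); `push_cast` to use `hord`.  `hF j`: `exists_shift` gives
`y' = V y + n`, `y = (x + j.val)/ℓ = act ℓ j x`; `Jq_congr hφ _ n`, then `hInv.pow o y`.  Denominators: `act_den_coprime` with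
`M = N * r`; `Nat.Coprime.coprime_mul_right_right`/`Nat.Coprime.coprime_dvd_right (Dvd.intro _ rfl)` to pass from `N * r` to `N`;
`den_natCast_mul_dvd`. -/
theorem sum_shift {r p ℓ : ℕ} [Fact ℓ.Prime] {φ : Additive (Gamma0 N) →+ A}
    (hφ : IsParabolicHom (Gamma0 N) φ) (hpA : ∀ a : A, p • a = 0) (hInv : Inv r φ)
    (hℓ : Nat.Coprime ℓ (N * r)) (x : ℚ) (hx : Nat.Coprime x.den (N * r))
    (hℓx : Nat.Coprime ℓ x.den) (o : ℕ) (hV : r ^ (2 * o) ≡ 1 [MOD x.den])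
    (hord : p ∣ orderOf ((r : ZMod ℓ) ^ (2 * o))) :
    ∑ j : ZMod ℓ, Jq φ ((x + (j.val : ℚ)) / (ℓ : ℚ))
      = Jq φ ((x + ((fixPt ℓ x).val : ℚ)) / (ℓ : ℚ)) := by
  have hℓp : ℓ.Prime := Fact.out
  have hℓ0 : ℓ ≠ 0 := hℓp.ne_zero
  have hℓr : Nat.Coprime ℓ r := Nat.Coprime.coprime_dvd_right (Dvd.intro_left _ rfl) hℓ
  have hr0 : (r : ZMod ℓ) ≠ 0 := by
    intro h
    rw [ZMod.natCast_eq_zero_iff] at h
    exact (Nat.Prime.coprime_iff_not_dvd hℓp).1 hℓr h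
  have hcast : (((r ^ (2 * o) : ℕ) : ZMod ℓ)) = (r : ZMod ℓ) ^ (2 * o) := by push_cast; rfl
  refine sum_eq_of_affine hpA (v := ((r ^ (2 * o) : ℕ) : ZMod ℓ)) ?_ ?_ (fixPt ℓ x)
    (fun j => Jq φ ((x + (j.val : ℚ)) / (ℓ : ℚ))) ?_
  · rw [hcast]
    exact pow_ne_zero _ hr0
  · rw [hcast]
    exact hord
  · intro j
    obtain ⟨n, hn⟩ := exists_shift x hℓx (r ^ (2 * o)) hV j
    have hy : Nat.Coprime ((x + (j.val : ℚ)) / (ℓ : ℚ)).den (N * r) := by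
      have := act_den_coprime hℓ0 hℓ (j : OnePoint (ZMod ℓ)) hx
      rwa [act_coe] at this
    have hVy : Nat.Coprime (((r ^ (2 * o) : ℕ) : ℚ) * ((x + (j.val : ℚ)) / (ℓ : ℚ))).den N :=
      Nat.Coprime.coprime_dvd_left (den_natCast_mul_dvd _ _)
        (Nat.Coprime.coprime_dvd_right (Dvd.intro _ rfl) hy)
    show Jq φ ((x + ((fixPt ℓ x + ((r ^ (2 * o) : ℕ) : ZMod ℓ) * (j - fixPt ℓ x)).val : ℚ)) / (ℓ : ℚ))
      = Jq φ ((x + (j.val : ℚ)) / (ℓ : ℚ))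
    rw [Jq_congr hφ hVy n hn, hInv.pow o _ hy]

/-- TASK `S41/Ih-Key`.  `hecke_rel' ℓ hℓN hφ θ hT x _`.  Left: `exists_mul_eq` + `Jq_congr`, `sum_shift` + `exists_fixed` + `Jq_congr`:
`J x + J x`.  Right: `sum_shift` with `x = 0` (`Rat.den_zero`/`Rat.num_zero`: `fixPt ℓ 0 = 0`, `ZMod.val_zero`, `Nat.modEq_one`),
`Jq_zero`.  So `J x + J x = θ • J x`; `sub_smul`, `two_smul`. -/
theorem key {r p ℓ : ℕ} [Fact ℓ.Prime] (hℓN : ¬ ℓ ∣ N) {φ : Additive (Gamma0 N) →+ A}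
    (hφ : IsParabolicHom (Gamma0 N) φ) (hpA : ∀ a : A, p • a = 0) (hInv : Inv r φ)
    (hℓ : Nat.Coprime ℓ (N * r)) (θ : ℤ) (hT : heckeHom N ℓ hℓN A φ = θ • φ)
    (x : ℚ) (hx : Nat.Coprime x.den (N * r)) (hℓx : ℓ ≡ 1 [MOD x.den]) (o : ℕ)
    (hV : r ^ (2 * o) ≡ 1 [MOD x.den]) (hord : p ∣ orderOf ((r : ZMod ℓ) ^ (2 * o))) :
    (θ - 2) • Jq φ x = 0 := by
  have hxN : Nat.Coprime x.den N := Nat.Coprime.coprime_dvd_right (Dvd.intro _ rfl) hx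
  have hℓx' : Nat.Coprime ℓ x.den := by
    have h1 := Nat.ModEq.gcd_eq hℓx
    rw [Nat.Coprime, h1]
    exact Nat.gcd_one_left _
  have h := hecke_rel' ℓ hℓN hφ θ hT x hxN
  obtain ⟨n1, hn1⟩ := exists_mul_eq x hℓx
  obtain ⟨n2, hn2⟩ := exists_fixed x hℓx
  rw [Jq_congr hφ hxN n1 hn1, sum_shift hφ hpA hInv hℓ x hx hℓx' o hV hord,
    Jq_congr hφ hxN n2 hn2] at h
  have h0 := sum_shift hφ hpA hInv hℓ 0 (by rw [Rat.den_zero]; exact Nat.coprime_one_left _)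
    (by rw [Rat.den_zero]; exact Nat.coprime_one_right _) o
    (by rw [Rat.den_zero]; exact Nat.modEq_one) hord
  have hf0 : fixPt ℓ 0 = 0 := by simp [fixPt]
  rw [h0, hf0, ZMod.val_zero, Nat.cast_zero, add_zero, zero_div, Jq_zero hφ, add_zero] at h
  rw [sub_smul, ← h, two_smul, sub_self]

end Fermat.Agent.S41.Ih
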