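import Fermat.Agent.ES.Coh.Defs

/-!
# S41 / Ih (Ihara's lemma for eigenvectors): the modular symbol `Jq φ : ℚ → A`

`φ : Γ₀(N) → A` an additive character killing parabolic (and elliptic) elements.  For `x = b/d ∈ ℚ`
with `(d, N) = 1` put `Jq φ x = φ γ`, `γ ∈ Γ₀(N)` any element with `γ · 0 = x`, i.e. with second column
proportional to `(x, 1)`.  See board #3136 (b).

Every `sorry` is ONE task (name in the docstring).  Touch ONLY your theorem (helpers with a prefix of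
your task name are welcome, directly above your theorem).
-/

set_option autoImplicit false

open CongruenceSubgroup Matrix.SpecialLinearGroup
open scoped MatrixGroups

namespace Fermat.Agent.S41.Ih

open Fermat.Agent.ES.Coh Fermat.Agent.S16.Shimura ModularCurve ModularCurve.Period

variable {N : ℕ} {A : Type} [AddCommGroup A]

/-- `γ · 0 = x`: the second column of `γ` is `d • (x, 1)` with `d ≠ 0`. -/
def Rep (γ : Gamma0 N) (x : ℚ) : Prop :=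
  (γ : SL(2, ℤ)) 1 1 ≠ 0 ∧ (((γ : SL(2, ℤ)) 0 1 : ℤ) : ℚ) = x * (((γ : SL(2, ℤ)) 1 1 : ℤ) : ℚ)

/-- TASK `S41/Ih-Col`.  `IsCoprime d (N * b)`: `u d + v N b = 1`; take `!![u, b; - v N, d]`
(`Gamma0_mem`, `ZMod.intCast_zmod_eq_zero_iff_dvd` or `S16.Shimura.dvd_of_mem_Gamma0`). -/
theorem exists_col (b d : ℤ) (hbd : IsCoprime b d) (hdN : IsCoprime d (N : ℤ)) :
    ∃ γ : Gamma0 N, (γ : SL(2, ℤ)) 0 1 = b ∧ (γ : SL(2, ℤ)) 1 1 = d := by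
  have h : IsCoprime d ((N : ℤ) * b) := IsCoprime.mul_right hdN hbd.symm
  obtain ⟨u, v, huv⟩ := h
  have hdet : (!![u, b; -(v * N), d] : Matrix (Fin 2) (Fin 2) ℤ).det = 1 := by
    rw [Matrix.det_fin_two_of]
    linarith
  let g : SL(2, ℤ) := ⟨!![u, b; -(v * N), d], hdet⟩
  have hg : g ∈ Gamma0 N := by
    rw [Gamma0_mem]
    simp [g]
  exact ⟨⟨g, hg⟩, rfl, rfl⟩

/-- TASK `S41/Ih-Col` (same task).  `exists_col x.num x.den`. -/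
theorem exists_rep (x : ℚ) (hx : Nat.Coprime x.den N) :
    ∃ γ : Gamma0 N, Rep γ x ∧ (γ : SL(2, ℤ)) 0 1 = x.num ∧ (γ : SL(2, ℤ)) 1 1 = x.den := by
  have h1 : IsCoprime x.num (x.den : ℤ) := by
    rw [Int.isCoprime_iff_gcd_eq_one]
    exact x.reduced
  have h2 : IsCoprime (x.den : ℤ) (N : ℤ) := Nat.isCoprime_iff_coprime.2 hx
  obtain ⟨γ, h01, h11⟩ := exists_col (N := N) x.num x.den h1 h2
  refine ⟨γ, ⟨?_, ?_⟩, h01, h11⟩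
  · rw [h11]
    exact_mod_cast x.den_nz
  · rw [h01, h11, Int.cast_natCast]
    exact (Rat.mul_den_eq_num x).symm

theorem IhDen_aux (b d : ℤ) (hd : d ≠ 0) (h : IsCoprime b d) (x : ℚ) (hx : (b : ℚ) = x * d) :
    x.den = d.natAbs := by
  have hdQ : (d : ℚ) ≠ 0 := by exact_mod_cast hd
  have hx' : x = (b : ℚ) / d := by rw [hx, mul_div_cancel_right₀ _ hdQ]
  have hc : Nat.Coprime b.natAbs d.natAbs := Int.isCoprime_iff_gcd_eq_one.1 h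
  rcases lt_or_gt_of_ne hd with hneg | hpos
  · have h1 : x = ((-b : ℤ) : ℚ) / ((-d : ℤ) : ℚ) := by
      rw [hx']
      push_cast
      rw [neg_div_neg_eq]
    have h2 := Rat.den_div_eq_of_coprime (a := -b) (b := -d) (by omega) (by
      rw [Int.natAbs_neg, Int.natAbs_neg]
      exact hc)
    rw [← h1] at h2
    omega
  · have h2 := Rat.den_div_eq_of_coprime (a := b) (b := d) hpos hc
    rw [← hx'] at h2
    omega

theorem IhDen_det (γ : Gamma0 N) :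
    (γ : SL(2, ℤ)) 0 0 * (γ : SL(2, ℤ)) 1 1 - (γ : SL(2, ℤ)) 0 1 * (γ : SL(2, ℤ)) 1 0 = 1 := by
  have h := (γ : SL(2, ℤ)).det_coe
  rwa [Matrix.det_fin_two] at h

/-- TASK `S41/Ih-Den`.  `b := γ 0 1`, `d := γ 1 1`: `det = 1` gives `IsCoprime b d` and (as `N ∣ γ 1 0`)
`IsCoprime d N`; `x = b / d`, so `x.den = d.natAbs` (`Rat.den_div_eq_of_coprime` / `Rat.divInt`,
treat the sign of `d`). -/
theorem Rep.den_eq {γ : Gamma0 N} {x : ℚ} (h : Rep γ x) : x.den = ((γ : SL(2, ℤ)) 1 1).natAbs := by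
  refine IhDen_aux _ _ h.1 ⟨-(γ : SL(2, ℤ)) 1 0, (γ : SL(2, ℤ)) 0 0, ?_⟩ x h.2
  linear_combination IhDen_det γ

/-- TASK `S41/Ih-Den` (same task). -/
theorem Rep.den_coprime {γ : Gamma0 N} {x : ℚ} (h : Rep γ x) : Nat.Coprime x.den N := by
  rw [h.den_eq]
  obtain ⟨c, hc⟩ := dvd_of_mem_Gamma0 N γ
  have h1 : IsCoprime ((γ : SL(2, ℤ)) 1 1) (N : ℤ) := by
    refine ⟨(γ : SL(2, ℤ)) 0 0, -(γ : SL(2, ℤ)) 0 1 * c, ?_⟩
    have h2 := IhDen_det γ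
    rw [hc] at h2
    linear_combination h2
  have h3 := Int.isCoprime_iff_gcd_eq_one.1 h1
  rwa [Int.gcd, Int.natAbs_natCast] at h3

/-- TASK `S41/Ih-Uniq`.  `(b,d)`, `(b',d')` the second columns: both primitive and `b d' = b' d`, so
`(b',d') = ± (b,d)`.  Hence the second column of `γ⁻¹ * γ'` is `± (0,1)`, so (det `= 1`) its trace is
`± 2`: `hφ (γ⁻¹ * γ') _ : φ (ofMul (γ⁻¹ * γ')) = 0`; `ofMul_mul`, `ofMul_inv`, `map_add`, `map_neg`. -/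
theorem map_eq_of_rep {φ : Additive (Gamma0 N) →+ A} (hφ : IsParabolicHom (Gamma0 N) φ)
    {γ γ' : Gamma0 N} {x : ℚ} (h : Rep γ x) (h' : Rep γ' x) :
    φ (Additive.ofMul γ) = φ (Additive.ofMul γ') := by
  obtain ⟨hd, hb⟩ := h
  obtain ⟨hd', hb'⟩ := h'
  set g : SL(2, ℤ) := (γ : SL(2, ℤ)) with hg
  set g' : SL(2, ℤ) := (γ' : SL(2, ℤ)) with hg'
  have hcross : g 1 1 * g' 0 1 - g 0 1 * g' 1 1 = 0 := by
    have : ((g 1 1 * g' 0 1 - g 0 1 * g' 1 1 : ℤ) : ℚ) = 0 := by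
      push_cast
      rw [hb, hb']
      ring
    exact_mod_cast this
  have hM : ((γ⁻¹ * γ' : Gamma0 N) : SL(2, ℤ)) = g⁻¹ * g' := by
    rw [Subgroup.coe_mul, Subgroup.coe_inv]
  have h01 : (g⁻¹ * g') 0 1 = g 1 1 * g' 0 1 - g 0 1 * g' 1 1 := by
    rw [Matrix.SpecialLinearGroup.coe_mul, Matrix.SpecialLinearGroup.SL2_inv_expl,
      Matrix.mul_apply, Fin.sum_univ_two]
    simp
    ring
  have hdet := (g⁻¹ * g').det_coe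
  rw [Matrix.det_fin_two, h01, hcross, zero_mul, sub_zero] at hdet
  have htr : ((g⁻¹ * g' : SL(2, ℤ)) : Matrix (Fin 2) (Fin 2) ℤ).trace ^ 2 = 4 := by
    rw [Matrix.trace_fin_two]
    rcases Int.mul_eq_one_iff_eq_one_or_neg_one.mp hdet with ⟨h1, h2⟩ | ⟨h1, h2⟩ <;>
      rw [h1, h2] <;> norm_num
  have h0 := hφ (γ⁻¹ * γ') (by rw [hM]; exact htr)
  rw [ofMul_mul, ofMul_inv, map_add, map_neg] at h0
  exact neg_add_eq_zero.mp h0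

open Classical in
/-- the modular symbol `{0, x}`. -/
noncomputable def Jq (φ : Additive (Gamma0 N) →+ A) (x : ℚ) : A :=
  if h : ∃ γ : Gamma0 N, Rep γ x then φ (Additive.ofMul h.choose) else 0

theorem Jq_eq {φ : Additive (Gamma0 N) →+ A} (hφ : IsParabolicHom (Gamma0 N) φ)
    {γ : Gamma0 N} {x : ℚ} (h : Rep γ x) : Jq φ x = φ (Additive.ofMul γ) := by
  have hex : ∃ γ : Gamma0 N, Rep γ x := ⟨γ, h⟩
  rw [Jq, dif_pos hex]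
  exact map_eq_of_rep hφ hex.choose_spec h

theorem Jq_zero {φ : Additive (Gamma0 N) →+ A} (hφ : IsParabolicHom (Gamma0 N) φ) :
    Jq φ 0 = 0 := by
  have h : Rep (1 : Gamma0 N) 0 := by
    constructor <;> simp
  rw [Jq_eq hφ h, ofMul_one, map_zero]

/-- TASK `S41/Ih-Smul`.  `Rep.mul`: entries of the product (`Subgroup.coe_mul`,
`Matrix.SpecialLinearGroup.coe_mul`, `Matrix.mul_apply`, `Fin.sum_univ_two`): with `b = x d`: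
`(σ γ) 1 1 = σ10 b + σ11 d = d (σ10 x + σ11) ≠ 0`, `(σ γ) 0 1 = d (σ00 x + σ01)`; `field_simp`. -/
theorem Rep.mul {γ : Gamma0 N} {x : ℚ} (h : Rep γ x) (σ : Gamma0 N)
    (hne : (((σ : SL(2, ℤ)) 1 0 : ℤ) : ℚ) * x + (((σ : SL(2, ℤ)) 1 1 : ℤ) : ℚ) ≠ 0) :
    Rep (σ * γ) (((((σ : SL(2, ℤ)) 0 0 : ℤ) : ℚ) * x + (((σ : SL(2, ℤ)) 0 1 : ℤ) : ℚ)) /
      ((((σ : SL(2, ℤ)) 1 0 : ℤ) : ℚ) * x + (((σ : SL(2, ℤ)) 1 1 : ℤ) : ℚ))) := by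
  obtain ⟨hd, hb⟩ := h
  have hd' : (((γ : SL(2, ℤ)) 1 1 : ℤ) : ℚ) ≠ 0 := by exact_mod_cast hd
  have h11 : (((σ * γ : Gamma0 N) : SL(2, ℤ)) 1 1 : ℤ)
      = (σ : SL(2, ℤ)) 1 0 * (γ : SL(2, ℤ)) 0 1 + (σ : SL(2, ℤ)) 1 1 * (γ : SL(2, ℤ)) 1 1 := by
    rw [Subgroup.coe_mul, Matrix.SpecialLinearGroup.coe_mul, Matrix.mul_apply, Fin.sum_univ_two]
  have h01 : (((σ * γ : Gamma0 N) : SL(2, ℤ)) 0 1 : ℤ)
      = (σ : SL(2, ℤ)) 0 0 * (γ : SL(2, ℤ)) 0 1 + (σ : SL(2, ℤ)) 0 1 * (γ : SL(2, ℤ)) 1 1 := by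
    rw [Subgroup.coe_mul, Matrix.SpecialLinearGroup.coe_mul, Matrix.mul_apply, Fin.sum_univ_two]
  have h11q : ((((σ * γ : Gamma0 N) : SL(2, ℤ)) 1 1 : ℤ) : ℚ)
      = ((((σ : SL(2, ℤ)) 1 0 : ℤ) : ℚ) * x + (((σ : SL(2, ℤ)) 1 1 : ℤ) : ℚ))
        * (((γ : SL(2, ℤ)) 1 1 : ℤ) : ℚ) := by
    rw [h11]; push_cast; rw [hb]; ring
  have h01q : ((((σ * γ : Gamma0 N) : SL(2, ℤ)) 0 1 : ℤ) : ℚ)
      = ((((σ : SL(2, ℤ)) 0 0 : ℤ) : ℚ) * x + (((σ : SL(2, ℤ)) 0 1 : ℤ) : ℚ))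
        * (((γ : SL(2, ℤ)) 1 1 : ℤ) : ℚ) := by
    rw [h01]; push_cast; rw [hb]; ring
  refine ⟨?_, ?_⟩
  · intro h0
    have : ((((σ * γ : Gamma0 N) : SL(2, ℤ)) 1 1 : ℤ) : ℚ) = 0 := by rw [h0]; simp
    rw [h11q] at this
    exact (mul_ne_zero hne hd') this
  · rw [h01q, h11q, ← mul_assoc, div_mul_cancel₀ _ hne]

/-- `J (σ x) = φ σ + J x`. -/
theorem Jq_smul {φ : Additive (Gamma0 N) →+ A} (hφ : IsParabolicHom (Gamma0 N) φ)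
    (σ : Gamma0 N) (x : ℚ) (hx : Nat.Coprime x.den N)
    (hne : (((σ : SL(2, ℤ)) 1 0 : ℤ) : ℚ) * x + (((σ : SL(2, ℤ)) 1 1 : ℤ) : ℚ) ≠ 0) :
    Jq φ (((((σ : SL(2, ℤ)) 0 0 : ℤ) : ℚ) * x + (((σ : SL(2, ℤ)) 0 1 : ℤ) : ℚ)) /
      ((((σ : SL(2, ℤ)) 1 0 : ℤ) : ℚ) * x + (((σ : SL(2, ℤ)) 1 1 : ℤ) : ℚ)))
      = φ (Additive.ofMul σ) + Jq φ x := by
  obtain ⟨γ, hγ, -, -⟩ := exists_rep (N := N) x hx
  rw [Jq_eq hφ (hγ.mul σ hne), Jq_eq hφ hγ, ofMul_mul, map_add]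

/-- a more flexible form: `y (σ10 x + σ11) = σ00 x + σ01`. -/
theorem Jq_smul' {φ : Additive (Gamma0 N) →+ A} (hφ : IsParabolicHom (Gamma0 N) φ)
    (σ : Gamma0 N) (x y : ℚ) (hx : Nat.Coprime x.den N)
    (hne : (((σ : SL(2, ℤ)) 1 0 : ℤ) : ℚ) * x + (((σ : SL(2, ℤ)) 1 1 : ℤ) : ℚ) ≠ 0)
    (hy : y * ((((σ : SL(2, ℤ)) 1 0 : ℤ) : ℚ) * x + (((σ : SL(2, ℤ)) 1 1 : ℤ) : ℚ))
      = (((σ : SL(2, ℤ)) 0 0 : ℤ) : ℚ) * x + (((σ : SL(2, ℤ)) 0 1 : ℤ) : ℚ)) :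
    Jq φ y = φ (Additive.ofMul σ) + Jq φ x := by
  rw [← Jq_smul hφ σ x hx hne, ← hy, mul_div_cancel_right₀ _ hne]

/-- TASK `S41/Ih-Int`.  `Jq_smul'` with `σ = ⟨ModularGroup.T ^ n, _⟩` (`S21.T_mem_Gamma0`,
`Subgroup.zpow_mem`, `ModularGroup.coe_T_zpow : ↑(T ^ n) = !![1, n; 0, 1]`), trace `= 2`, so `φ σ = 0`. -/
theorem Jq_add_int {φ : Additive (Gamma0 N) →+ A} (hφ : IsParabolicHom (Gamma0 N) φ)
    (x : ℚ) (hx : Nat.Coprime x.den N) (n : ℤ) : Jq φ (x + n) = Jq φ x := by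
  have hmem : ModularGroup.T ^ n ∈ Gamma0 N :=
    Subgroup.zpow_mem _ (Fermat.Agent.S21.T_mem_Gamma0 N) n
  have h00 : ((⟨ModularGroup.T ^ n, hmem⟩ : Gamma0 N) : SL(2, ℤ)) 0 0 = 1 := by
    change (ModularGroup.T ^ n : SL(2, ℤ)) 0 0 = 1
    rw [ModularGroup.coe_T_zpow]; rfl
  have h01 : ((⟨ModularGroup.T ^ n, hmem⟩ : Gamma0 N) : SL(2, ℤ)) 0 1 = n := by
    change (ModularGroup.T ^ n : SL(2, ℤ)) 0 1 = n
    rw [ModularGroup.coe_T_zpow]; rfl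
  have h10 : ((⟨ModularGroup.T ^ n, hmem⟩ : Gamma0 N) : SL(2, ℤ)) 1 0 = 0 := by
    change (ModularGroup.T ^ n : SL(2, ℤ)) 1 0 = 0
    rw [ModularGroup.coe_T_zpow]; rfl
  have h11 : ((⟨ModularGroup.T ^ n, hmem⟩ : Gamma0 N) : SL(2, ℤ)) 1 1 = 1 := by
    change (ModularGroup.T ^ n : SL(2, ℤ)) 1 1 = 1
    rw [ModularGroup.coe_T_zpow]; rfl
  have hφ0 : φ (Additive.ofMul (⟨ModularGroup.T ^ n, hmem⟩ : Gamma0 N)) = 0 := by
    apply hφ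
    rw [Matrix.trace_fin_two, h00, h11]
    norm_num
  rw [Jq_smul' hφ ⟨ModularGroup.T ^ n, hmem⟩ x (x + n) hx (by rw [h10, h11]; simp)
    (by rw [h00, h01, h10, h11]; simp), hφ0, zero_add]

/-- two points which differ by an integer. -/
theorem Jq_congr {φ : Additive (Gamma0 N) →+ A} (hφ : IsParabolicHom (Gamma0 N) φ)
    {x y : ℚ} (hx : Nat.Coprime x.den N) (n : ℤ) (h : y = x + n) : Jq φ y = Jq φ x := by
  rw [h, Jq_add_int hφ x hx n]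

end Fermat.Agent.S41.Ih
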